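import Fermat.Agent.DR.Nodal.Ortho
import Fermat.Agent.DR.Mono.Coord

set_option autoImplicit false

/-!
# Lifting pairs of reductions to rational functions

`F₀ ⊂ F` a subfield (functions over the inertia field) on which the two reductions are discretely
valued with uniformiser `ϖ`. If `V` is spanned by `V ∩ F₀` then every reduction of an element of `V`
is the reduction of an element of `V ∩ F₀`.
-/

noncomputable section

open AlgebraicCurve Fermat.Agent.RR Fermat.Agent.JRED Fermat.Agent.DR.Mono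

namespace Fermat.Agent.DR.L2

variable {K F k F₁ F₂ : Type*} [Field K] [Field F] [Algebra K F] [Field k] [Field F₁] [Field F₂]
  [Algebra k F₁] [Algebra k F₂] {A : ValuationSubring K} {π : A →+* k}

section Disc

variable {Fk : Type*} [Field Fk] [Algebra k Fk] {R : RedDatum K F k Fk A π} {F₀ : Subfield F}
  {ϖ : K}

theorem _root_.Fermat.Agent.DR.Mono.DiscData.mem_pow (h : DiscData R F₀ ϖ) (n : ℕ) :
    algebraMap K F (ϖ ^ n) ∈ F₀ := by
  rw [map_pow]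
  exact pow_mem h.mem_F₀ n

/-- Division by the uniformiser. -/
theorem _root_.Fermat.Agent.DR.Mono.DiscData.div (h : DiscData R F₀ ϖ) {y : F} (hy : y ∈ F₀)
    (h0 : R.Red y 0) : ∃ u, R.Red (algebraMap K F ϖ⁻¹ * y) u := by
  rcases eq_or_ne y 0 with rfl | hy0
  · exact ⟨0, by rw [mul_zero]; exact R.zero⟩
  obtain ⟨a, u, hu, hau⟩ := h.disc y hy hy0
  have ha : 0 < a := by
    by_contra hle
    push Not at hle
    apply hu
    apply R.unique hau
    have h1 := RedDatum.smul_mem (zpow_mem_of_nonneg h.mem (neg_nonneg.mpr hle)) h0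
    rw [mul_zero, zpow_neg] at h1
    exact h1
  obtain ⟨n, rfl⟩ : ∃ n : ℕ, a = n + 1 := ⟨(a - 1).toNat, by omega⟩
  have h1 := RedDatum.smul_mem (pow_mem h.mem n) hau
  rw [← mul_assoc, ← map_mul] at h1
  have h2 : ϖ ^ n * (ϖ ^ ((n : ℤ) + 1))⁻¹ = ϖ⁻¹ := by
    have h0 := h.ne_zero
    rw [zpow_add₀ h0, zpow_natCast, zpow_one]
    field_simp
  rw [h2] at h1
  exact ⟨_, h1⟩

/-- Every rational function becomes integral after multiplication by a power of `ϖ`. -/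
theorem _root_.Fermat.Agent.DR.Mono.DiscData.exists_mul (h : DiscData R F₀ ϖ) {y : F}
    (hy : y ∈ F₀) : ∃ N : ℕ, ∀ n ≥ N, ∃ u, R.Red (algebraMap K F (ϖ ^ n) * y) u := by
  rcases eq_or_ne y 0 with rfl | hy0
  · exact ⟨0, fun n _ => ⟨0, by rw [mul_zero]; exact R.zero⟩⟩
  obtain ⟨a, u, hu, hau⟩ := h.disc y hy hy0
  refine ⟨(-a).toNat, fun n hn => ?_⟩
  have hna : 0 ≤ (n : ℤ) + a := by
    have := Int.self_le_toNat (-a)
    have h2 : ((-a).toNat : ℤ) ≤ n := by exact_mod_cast hn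
    omega
  have h1 := RedDatum.smul_mem (zpow_mem_of_nonneg h.mem hna) hau
  have h2 : ϖ ^ ((n : ℤ) + a) * (ϖ ^ a)⁻¹ = ϖ ^ n := by
    rw [zpow_add₀ h.ne_zero, zpow_natCast, mul_assoc, mul_inv_cancel₀ (zpow_ne_zero _ h.ne_zero),
      mul_one]
  rw [← mul_assoc, ← map_mul, h2] at h1
  exact ⟨_, h1⟩

end Disc

/-- The subfield `F₀` is discrete for both reductions, with the same residue constants. -/
structure DiscPair (R₁ : RedDatum K F k F₁ A π) (R₂ : RedDatum K F k F₂ A π) (F₀ : Subfield F)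
    (ϖ : K) : Prop where
  one : DiscData R₁ F₀ ϖ
  two : DiscData R₂ F₀ ϖ
  lift : ∀ c : k, ∃ a : A, π a = c ∧ algebraMap K F (a : K) ∈ F₀

variable {R₁ : RedDatum K F k F₁ A π} {R₂ : RedDatum K F k F₂ A π} {F₀ : Subfield F} {ϖ : K}

theorem DiscPair.div (h : DiscPair R₁ R₂ F₀ ϖ) {y : F} (hy : y ∈ F₀) (h0 : Red₂ R₁ R₂ y 0) :
    ∃ u, Red₂ R₁ R₂ (algebraMap K F ϖ⁻¹ * y) u := by
  obtain ⟨u₁, h1⟩ := h.one.div hy h0.1
  obtain ⟨u₂, h2⟩ := h.two.div hy h0.2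
  exact ⟨(u₁, u₂), h1, h2⟩

theorem DiscPair.exists_mul (h : DiscPair R₁ R₂ F₀ ϖ) {y : F} (hy : y ∈ F₀) :
    ∃ n : ℕ, ∃ u, Red₂ R₁ R₂ (algebraMap K F (ϖ ^ n) * y) u := by
  obtain ⟨N₁, h1⟩ := h.one.exists_mul hy
  obtain ⟨N₂, h2⟩ := h.two.exists_mul hy
  obtain ⟨u₁, hu₁⟩ := h1 (max N₁ N₂) (le_max_left _ _)
  obtain ⟨u₂, hu₂⟩ := h2 (max N₁ N₂) (le_max_right _ _)
  exact ⟨max N₁ N₂, (u₁, u₂), hu₁, hu₂⟩

/-- Reductions of rational elements of `V`. -/
def redRat (h : DiscPair R₁ R₂ F₀ ϖ) (V : Submodule K F) : Submodule k (F₁ × F₂) where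
  carrier := {u | ∃ w ∈ V, w ∈ F₀ ∧ Red₂ R₁ R₂ w u}
  zero_mem' := ⟨0, V.zero_mem, zero_mem _, Red₂.zero⟩
  add_mem' := by
    rintro u u' ⟨w, hw, hwF, h⟩ ⟨w', hw', hwF', h'⟩
    exact ⟨w + w', V.add_mem hw hw', add_mem hwF hwF', Red₂.add h h'⟩
  smul_mem' := by
    rintro c u ⟨w, hw, hwF, hu⟩
    obtain ⟨a, rfl, ha⟩ := h.lift c
    refine ⟨(a : K) • w, V.smul_mem _ hw, ?_, Red₂.smul a.2 hu⟩
    rw [Algebra.smul_def]
    exact mul_mem ha hwF

/-- Linear functionals are bounded on integral elements. -/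
theorem exists_bound (hπ : Function.Surjective π) (hA : Arch π) (h : DiscPair R₁ R₂ F₀ ϖ)
    {V : Submodule K F} (ho : HasOrthoPair R₁ R₂ V) (lam : F →ₗ[K] K) :
    ∃ N : ℕ, ∀ z ∈ V, ∀ u, Red₂ R₁ R₂ z u → ϖ ^ N * lam z ∈ A := by
  obtain ⟨B⟩ := HasOrthoPair.nonempty hπ ho
  have h1 : ∀ i, ∃ N : ℕ, ϖ ^ N * lam (B.bas i) ∈ A := fun i => hA ⟨ϖ, h.one.mem⟩ h.one.res _
  choose N hN using h1
  refine ⟨∑ i, N i, fun z hz u hu => ?_⟩
  have h2 := B.repr_mem hπ (z := ⟨z, hz⟩) hu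
  have h3 : lam z = ∑ i, B.bas.repr ⟨z, hz⟩ i * lam (B.bas i) := by
    conv_lhs => rw [show z = ((⟨z, hz⟩ : V) : F) from rfl, ← B.sum_eq ⟨z, hz⟩]
    rw [map_sum]
    exact Finset.sum_congr rfl fun i _ => by rw [map_smul, smul_eq_mul]
  rw [h3, Finset.mul_sum]
  refine sum_mem fun i hi => ?_
  have h4 : ϖ ^ (∑ i, N i) * (B.bas.repr ⟨z, hz⟩ i * lam (B.bas i)) =
      B.bas.repr ⟨z, hz⟩ i * (ϖ ^ (∑ j ∈ Finset.univ.erase i, N j) *
        (ϖ ^ N i * lam (B.bas i))) := by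
    rw [← Finset.add_sum_erase _ _ hi, pow_add]
    ring
  rw [h4]
  exact mul_mem (h2 i) (mul_mem (pow_mem h.one.mem _) (hN i))

/-- **Lifting reductions to rational functions.** -/
theorem exists_lift_rat (hπ : Function.Surjective π) (hA : Arch π) (h : DiscPair R₁ R₂ F₀ ϖ)
    {V : Submodule K F} [FiniteDimensional K V] (hV : V ≤ Submodule.span K {w | w ∈ V ∧ w ∈ F₀})
    (ho : HasOrthoPair R₁ R₂ V) : redPair R₁ R₂ hπ V = redRat h V := by
  have hle : redRat h V ≤ redPair R₁ R₂ hπ V := by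
    rintro u ⟨w, hw, -, hu⟩
    exact ⟨w, hw, hu⟩
  refine le_antisymm ?_ hle
  have hfin : Module.Finite k (redPair R₁ R₂ hπ V) := ho.finite_redPair hπ
  have hfin' : Module.Finite k (redRat h V) := Submodule.finiteDimensional_of_le hle
  let B := Module.finBasis k (redRat h V)
  have hB : ∀ i, ∃ w ∈ V, w ∈ F₀ ∧ Red₂ R₁ R₂ w (B i : F₁ × F₂) := fun i => (B i).2
  choose b hbV hbF hbr using hB
  have hli : LinearIndependent k fun i => (B i : F₁ × F₂) :=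
    B.linearIndependent.map' (redRat h V).subtype (Submodule.ker_subtype _)
  have hspan : Submodule.span k (Set.range fun i => (B i : F₁ × F₂)) = redRat h V := by
    rw [show (Set.range fun i => (B i : F₁ × F₂)) = (redRat h V).subtype '' Set.range B by
      rw [← Set.range_comp]; rfl, Submodule.span_image, B.span_eq, Submodule.map_top,
      Submodule.range_subtype]
  rw [← hspan, ← redPair_span hπ hbr hli]
  apply redPair_mono
  by_contra hcon
  -- an element of `V ∩ F₀` outside the span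
  obtain ⟨b₀, hb₀V, hb₀F, hb₀⟩ : ∃ b₀ ∈ V, b₀ ∈ F₀ ∧ b₀ ∉ Submodule.span K (Set.range b) := by
    by_contra hall
    push Not at hall
    apply hcon
    refine hV.trans (Submodule.span_le.mpr ?_)
    rintro w ⟨hw1, hw2⟩
    exact hall w hw1 hw2
  obtain ⟨lam, hlam0, hlam⟩ := Submodule.exists_le_ker_of_notMem hb₀
  obtain ⟨N, hN⟩ := exists_bound hπ hA h ho lam
  obtain ⟨n₀, u₀, hu₀⟩ := h.exists_mul hb₀F
  have hϖ := h.one.ne_zero
  have hϖF : algebraMap K F ϖ ∈ F₀ := h.one.mem_F₀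
  -- the descent
  have key : ∀ n : ℕ, ∃ z ∈ V, z ∈ F₀ ∧ (∃ u, Red₂ R₁ R₂ z u) ∧
      lam z = (ϖ ^ n)⁻¹ * (ϖ ^ n₀ * lam b₀) := by
    intro n
    induction n with
    | zero =>
      refine ⟨algebraMap K F (ϖ ^ n₀) * b₀, ?_, mul_mem (h.one.mem_pow n₀) hb₀F, ⟨u₀, hu₀⟩, ?_⟩
      · rw [← Algebra.smul_def]; exact V.smul_mem _ hb₀V
      · rw [← Algebra.smul_def, map_smul, smul_eq_mul, pow_zero, inv_one, one_mul]
    | succ n ih =>
      obtain ⟨z, hzV, hzF, ⟨u, hu⟩, hz⟩ := ih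
      have hu' : u ∈ Submodule.span k (Set.range fun i => (B i : F₁ × F₂)) := by
        rw [hspan]; exact ⟨z, hzV, hzF, hu⟩
      obtain ⟨c, hc⟩ := (Submodule.mem_span_range_iff_exists_fun k).mp hu'
      choose a ha haF using fun i => h.lift (c i)
      set y : F := ∑ i, (a i : K) • b i with hy
      have hyV : y ∈ V := Submodule.sum_mem _ fun i _ => V.smul_mem _ (hbV i)
      have hyF : y ∈ F₀ := sum_mem fun i _ => by
        rw [Algebra.smul_def]; exact mul_mem (haF i) (hbF i)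
      have hyr : Red₂ R₁ R₂ y u := by
        rw [← hc]
        have h1 := ortho_red_sum hbr Finset.univ (fun i => (a i : K)) (fun i => (a i).2)
        simp only [Subtype.coe_eta, ha] at h1
        exact h1
      have hyl : lam y = 0 := by
        have h1 : y ∈ Submodule.span K (Set.range b) :=
          Submodule.sum_mem _ fun i _ => Submodule.smul_mem _ _ (Submodule.subset_span ⟨i, rfl⟩)
        exact hlam h1
      have hred : Red₂ R₁ R₂ (z - y) 0 := by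
        have h1 := Red₂.sub hu hyr
        rwa [sub_self] at h1
      obtain ⟨v, hv⟩ := h.div (sub_mem hzF hyF) hred
      refine ⟨algebraMap K F ϖ⁻¹ * (z - y), ?_, ?_, ⟨v, hv⟩, ?_⟩
      · rw [← Algebra.smul_def]; exact V.smul_mem _ (V.sub_mem hzV hyV)
      · refine mul_mem ?_ (sub_mem hzF hyF)
        rw [map_inv₀]
        exact inv_mem hϖF
      · rw [← Algebra.smul_def, map_smul, smul_eq_mul, map_sub, hyl, sub_zero, hz, pow_succ,
          mul_inv]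
        ring
  -- contradiction
  set x : K := ϖ ^ N * (ϖ ^ n₀ * lam b₀) with hx
  have hx0 : x ≠ 0 := mul_ne_zero (pow_ne_zero _ hϖ) (mul_ne_zero (pow_ne_zero _ hϖ) hlam0)
  obtain ⟨m, hm⟩ := hA ⟨ϖ, h.one.mem⟩ h.one.res x⁻¹
  obtain ⟨z, hzV, hzF, ⟨u, hu⟩, hz⟩ := key (m + 1)
  have h1 := hN z hzV u hu
  rw [hz] at h1
  have h2 := mul_mem hm h1
  have h3 : (ϖ ^ m * x⁻¹) * (ϖ ^ N * ((ϖ ^ (m + 1))⁻¹ * (ϖ ^ n₀ * lam b₀))) = ϖ⁻¹ := by
    have : ϖ ^ N * ((ϖ ^ (m + 1))⁻¹ * (ϖ ^ n₀ * lam b₀)) = x * (ϖ ^ (m + 1))⁻¹ := by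
      rw [hx]; ring
    rw [this, pow_succ]
    field_simp
  change (ϖ ^ m * x⁻¹) * (ϖ ^ N * ((ϖ ^ (m + 1))⁻¹ * (ϖ ^ n₀ * lam b₀))) ∈ A at h2
  rw [h3] at h2
  have h4 : π (⟨ϖ, h.one.mem⟩ * ⟨ϖ⁻¹, h2⟩) = π 1 := by
    congr 1
    exact Subtype.ext (mul_inv_cancel₀ hϖ)
  rw [map_mul, h.one.res, zero_mul, map_one] at h4
  exact zero_ne_one h4

end Fermat.Agent.DR.L2
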